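import Fermat.Agent.CarmichaelNumbers.Progressions
import Fermat.Agent.TotientValues.Main
import Mathlib.Data.Nat.Choose.Bounds

/-!
# Popular totient values

Erdős (1935): with `Y = Z ^ (1 - E)` the products of `k = ⌈Z ^ (1 - E / 2)⌉` primes `q ∈ (Z, 2 Z]`
with `q - 1` free of primes `> Y` have only `exp (O (Y log Z))` values of `φ`, all at most
`(2 Z) ^ k`, so one of them is taken `(2 Z) ^ (γ k)` times.
-/

set_option autoImplicit false

noncomputable section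

namespace FA.PopularTotients

open Finset Filter
open FA.ErdosKac (primesUpTo mem_primesUpTo)
open scoped Topology

/-- The number of primes in one product. -/
def partSize (E : ℝ) (Z : ℕ) : ℕ := ⌈(Z : ℝ) ^ (1 - E / 2)⌉₊

/-- `(2 Z) ^ k`, a bound for the products and their totients. -/
def productBound (E : ℝ) (Z : ℕ) : ℕ := (2 * Z) ^ partSize E Z

/-- The positive `m ≤ X` free of primes above `Y`. -/
def smoothUpTo (X Y : ℕ) : Finset ℕ :=
  (Icc 1 X).filter fun m => m.primeFactors ⊆ primesUpTo Y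

theorem card_smoothUpTo_le (X Y : ℕ) : (smoothUpTo X Y).card ≤ (Nat.log 2 X + 1) ^ Y := by
  classical
  refine le_trans (card_le_card_of_injOn
    (fun m => fun p (_ : p ∈ primesUpTo Y) => m.factorization p)
    (t := (primesUpTo Y).pi fun _ => range (Nat.log 2 X + 1)) (fun m hm => ?_)
    fun m hm m' hm' h => ?_) ?_
  · rw [mem_coe, smoothUpTo, mem_filter, mem_Icc] at hm
    simp only [mem_coe, Finset.mem_pi, mem_range, Nat.lt_succ_iff]
    intro p hp
    obtain ⟨hpp, -⟩ := mem_primesUpTo.1 hp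
    refine Nat.le_log_of_pow_le one_lt_two (le_trans ?_
      ((Nat.le_of_dvd hm.1.1 (Nat.ordProj_dvd m p)).trans hm.1.2))
    exact Nat.pow_le_pow_left hpp.two_le _
  · rw [mem_coe, smoothUpTo, mem_filter, mem_Icc] at hm hm'
    refine Nat.eq_of_factorization_eq (by omega) (by omega) fun p => ?_
    by_cases hp : p ∈ primesUpTo Y
    · exact congrFun (congrFun h p) hp
    · rw [Finsupp.notMem_support_iff.1 fun hs => hp (hm.2 (Nat.support_factorization m ▸ hs)),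
        Finsupp.notMem_support_iff.1 fun hs => hp (hm'.2 (Nat.support_factorization m' ▸ hs))]
  · rw [card_pi, prod_const, card_range]
    refine Nat.pow_le_pow_right (Nat.succ_pos _) ?_
    exact (card_le_card (t := Icc 1 Y) fun p hp => mem_Icc.2
      ⟨(mem_primesUpTo.1 hp).1.one_le, (mem_primesUpTo.1 hp).2⟩).trans (by simp)

theorem div_pow_le_choose (M k : ℕ) :
    ((((M + 1 - k : ℕ) : ℝ)) / k) ^ k ≤ (M.choose k : ℝ) := by
  refine le_trans ?_ (Nat.pow_le_choose k M)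
  rw [div_pow]
  refine div_le_div₀ (by positivity) le_rfl
    (Nat.cast_pos.2 (Nat.factorial_pos k)) ?_
  exact_mod_cast Nat.factorial_le_pow k

/-- **One popular value below `(2 Z) ^ k`.** -/
theorem exists_popular_value : ∃ E γ : ℝ, 0 < E ∧ E ≤ 1 / 4 ∧ 0 < γ ∧ ∀ᶠ Z : ℕ in atTop,
    ∃ (m : ℕ) (S : Finset ℕ), 1 ≤ m ∧ m ≤ productBound E Z ∧
      (productBound E Z : ℝ) ^ γ ≤ S.card ∧ ∀ n ∈ S, n.totient = m := by
  obtain ⟨E, c, hE, hE4, hc, hmany⟩ := FA.CarmichaelNumbers.exists_smoothPrimes_ge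
  refine ⟨E, E / 8, hE, hE4, by positivity, ?_⟩
  have hN := tendsto_natCast_atTop_atTop (R := ℝ)
  filter_upwards [hmany,
    hN.eventually ((isLittleO_log_rpow_atTop (show 0 < E / 6 by positivity)).def
      (show 0 < c / 4 by positivity)),
    ((tendsto_rpow_atTop (show 0 < E / 2 by positivity)).comp hN).eventually_ge_atTop (48 / E),
    eventually_ge_atTop 8] with Z hmany hlog hpow hZ
  simp only [Function.comp_apply] at hpow
  obtain ⟨z, hz⟩ : ∃ z, z = (Z : ℝ) := ⟨_, rfl⟩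
  obtain ⟨ℓ, hℓ⟩ : ∃ ℓ, ℓ = Real.log Z := ⟨_, rfl⟩
  have hz1 : 1 < z := hz ▸ Nat.one_lt_cast.2 (by omega)
  have hz0 : 0 < z := by linarith
  have hℓ0 : 0 < ℓ := hℓ ▸ Real.log_pos (Nat.one_lt_cast.2 (by omega))
  rw [Real.norm_of_nonneg (Real.rpow_nonneg (Nat.cast_nonneg Z) _),
    Real.norm_of_nonneg (Real.log_natCast_nonneg Z), ← hℓ, ← hz] at hlog
  rw [← hz] at hpow
  rw [← hℓ, ← hz] at hmany
  obtain ⟨k, hk⟩ : ∃ k, k = partSize E Z := ⟨_, rfl⟩
  obtain ⟨X, hX⟩ : ∃ X, X = productBound E Z := ⟨_, rfl⟩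
  obtain ⟨y, hy⟩ : ∃ y, y = z ^ (1 - E) := ⟨_, rfl⟩
  obtain ⟨Q, hQ⟩ : ∃ Q, Q = FA.CarmichaelNumbers.smoothPrimes Z y := ⟨_, rfl⟩
  rw [← hy, ← hQ] at hmany
  rw [← hX]
  have hy0 : 0 < y := hy ▸ Real.rpow_pos_of_pos hz0 _
  have hk_ge : z ^ (1 - E / 2) ≤ k := hk ▸ hz ▸ Nat.le_ceil _
  have hk_le : (k : ℝ) ≤ 2 * z ^ (1 - E / 2) := by
    rw [hk, partSize, ← hz]
    linarith [Nat.ceil_lt_add_one (Real.rpow_nonneg hz0.le (1 - E / 2)),
      Real.one_le_rpow hz1.le (show 0 ≤ 1 - E / 2 by linarith)]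
  have hk1 : 1 ≤ k := by
    have : (1 : ℝ) ≤ k := (Real.one_le_rpow hz1.le (by linarith)).trans hk_ge
    exact_mod_cast this
  have hkZ : k ≤ Z := hk ▸ Nat.ceil_le.2 (by
    simpa using Real.rpow_le_rpow_of_exponent_le (hz ▸ hz1.le) (show 1 - E / 2 ≤ 1 by linarith))
  have hXR : (X : ℝ) = Real.exp (k * Real.log (2 * z)) := by
    rw [Real.exp_nat_mul, Real.exp_log (by linarith), hX, productBound, ← hk, hz]
    push_cast
    rfl
  -- the smooth values
  obtain ⟨V, hV⟩ : ∃ V, V = smoothUpTo X ⌊y⌋₊ := ⟨_, rfl⟩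
  have hVle : (V.card : ℝ) ≤ Real.exp (E / 12 * (k * ℓ)) := by
    have hlogX : Nat.log 2 X + 1 ≤ Z ^ 4 := by
      have h1 : X < 2 ^ (k * (2 * Z)) := by
        rw [hX, productBound, ← hk, mul_comm k, pow_mul]
        exact Nat.pow_lt_pow_left Nat.lt_two_pow_self (by omega)
      have h2 := Nat.log_lt_of_lt_pow (by rw [hX, productBound]; positivity) h1
      have h3 : k * (2 * Z) ≤ Z * (2 * Z) := Nat.mul_le_mul_right _ hkZ
      have h4 : Z * (2 * Z) ≤ Z ^ 4 := by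
        have h5 : 2 * 1 ≤ Z * Z := Nat.mul_le_mul (by omega) (by omega)
        calc Z * (2 * Z) = Z * Z * 2 := by ring
          _ ≤ Z * Z * (Z * Z) := Nat.mul_le_mul_left _ (by omega)
          _ = Z ^ 4 := by ring
      omega
    refine (Nat.cast_le.2 (hV ▸ card_smoothUpTo_le X ⌊y⌋₊)).trans ?_
    refine (Nat.cast_le.2 (Nat.pow_le_pow_left hlogX _)).trans ?_
    rw [← pow_mul, Nat.cast_pow, ← hz, ← Real.exp_log hz0, ← Real.exp_nat_mul, Real.exp_le_exp,
      hz, ← hℓ, Nat.cast_mul, Nat.cast_ofNat]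
    refine (mul_le_mul_of_nonneg_right (mul_le_mul_of_nonneg_left (Nat.floor_le hy0.le)
      (by norm_num)) hℓ0.le).trans ?_
    rw [← mul_assoc]
    refine mul_le_mul_of_nonneg_right ?_ hℓ0.le
    have h1 : z ^ (1 - E / 2) = y * z ^ (E / 2) := by
      rw [hy, ← Real.rpow_add hz0]
      ring_nf
    rw [div_le_iff₀ hE] at hpow
    have h2 := mul_le_mul_of_nonneg_left hpow (show 0 ≤ y / 12 by positivity)
    have h3 := mul_le_mul_of_nonneg_left hk_ge (show 0 ≤ E / 12 by positivity)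
    rw [h1] at h3
    linarith
  -- the subsets
  have hchoose : Real.exp (E / 3 * (k * ℓ)) ≤ ((Q.card.choose k : ℕ) : ℝ) := by
    refine le_trans ?_ (div_pow_le_choose Q.card k)
    rw [mul_left_comm, Real.exp_nat_mul]
    refine pow_le_pow_left₀ (Real.exp_nonneg _) ?_ k
    rw [mul_comm (E / 3), hℓ, ← Real.rpow_def_of_pos (Nat.cast_pos.2 (by omega)), ← hz,
      le_div_iff₀ (Nat.cast_pos.2 hk1)]
    have h1 : 2 * z ^ (1 - E / 2) * z ^ (E / 3) ≤ c / 2 * z / ℓ := by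
      rw [le_div_iff₀ hℓ0, mul_assoc 2, ← Real.rpow_add hz0]
      refine (mul_le_mul_of_nonneg_left hlog (by positivity)).trans (le_of_eq ?_)
      rw [mul_mul_mul_comm, ← Real.rpow_add hz0,
        show 1 - E / 2 + E / 3 + E / 6 = 1 by ring, Real.rpow_one]
      ring
    have h2 : c / 2 * z / ℓ = c * z / ℓ / 2 := by ring
    have hzE : (1 : ℝ) ≤ z ^ (E / 3) := Real.one_le_rpow hz1.le (by positivity)
    have h3 := mul_le_mul_of_nonneg_right hk_le (Real.rpow_nonneg hz0.le (E / 3))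
    have h4 := le_mul_of_one_le_right (Nat.cast_nonneg (α := ℝ) k) hzE
    have hkQ : k ≤ Q.card + 1 := by
      have : (k : ℝ) ≤ (Q.card : ℝ) + 1 := by
        have : 0 ≤ c * z / ℓ := by positivity
        linarith
      exact_mod_cast this
    rw [Nat.cast_sub hkQ, Nat.cast_add, Nat.cast_one, mul_comm]
    linarith
  -- the totient map
  have hmaps : ∀ T ∈ Q.powersetCard k, (∏ q ∈ T, q).totient ∈ V ∧ (∏ q ∈ T, q).primeFactors = T :=
    fun T hT => by
    obtain ⟨hTQ, hTk⟩ := mem_powersetCard.1 hT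
    have hq : ∀ q ∈ T, q.Prime ∧ q ≤ 2 * Z ∧ ∀ r : ℕ, r.Prime → r ∣ q - 1 → (r : ℝ) ≤ y :=
      fun q hq => by
        have h := hQ ▸ hTQ hq
        obtain ⟨h1, h2, h3⟩ := (@Finset.mem_filter _ _ (_) _ _).1 h
        exact ⟨h2, (mem_Ioc.1 h1).2, h3⟩
    have hpf := Nat.primeFactors_prod fun q h => (hq q h).1
    have hn0 : ∏ q ∈ T, q ≠ 0 := (prod_pos fun q h => (hq q h).1.pos).ne'
    have htot : (∏ q ∈ T, q).totient = ∏ q ∈ T, (q - 1) := by
      refine Nat.eq_of_mul_eq_mul_right (prod_pos fun q h => (hq q h).1.pos) ?_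
      have h := Nat.totient_mul_prod_primeFactors (∏ q ∈ T, q)
      rw [hpf] at h
      rw [h, mul_comm]
    refine ⟨?_, hpf⟩
    rw [hV, smoothUpTo, mem_filter, mem_Icc]
    refine ⟨⟨Nat.totient_pos.2 (Nat.pos_of_ne_zero hn0), (Nat.totient_le _).trans ?_⟩,
      fun r hr => ?_⟩
    · rw [hX, productBound, ← hk, ← hTk]
      exact prod_le_pow_card _ _ _ fun q h => (hq q h).2.1
    · obtain ⟨hrp, hrd, -⟩ := Nat.mem_primeFactors.1 hr
      rw [htot] at hrd
      obtain ⟨q, hqT, hrq⟩ := (hrp.prime.dvd_finsetProd_iff _).1 hrd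
      exact mem_primesUpTo.2 ⟨hrp, Nat.le_floor ((hq q hqT).2.2 r hrp hrq)⟩
  have hXγ : (X : ℝ) ^ (E / 8) ≤ Real.exp (E / 4 * (k * ℓ)) := by
    rw [hXR, ← Real.exp_mul]
    refine Real.exp_le_exp.2 ?_
    have h : Real.log (2 * z) ≤ 2 * ℓ := by
      rw [Real.log_mul two_ne_zero hz0.ne', hz, ← hℓ]
      have := Real.log_le_log two_pos (show (2 : ℝ) ≤ Z by exact_mod_cast (by omega : 2 ≤ Z))
      linarith [hℓ.ge]
    have := mul_le_mul_of_nonneg_left h (show 0 ≤ (k : ℝ) * (E / 8) by positivity)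
    linarith
  have hVne : V.Nonempty := ⟨1, hV ▸ mem_filter.2 ⟨mem_Icc.2 ⟨le_rfl, hX ▸ Nat.one_le_pow _ _
    (by omega)⟩, by simp⟩⟩
  obtain ⟨m, hmV, hm⟩ : ∃ m ∈ V, (X : ℝ) ^ (E / 8) ≤
      ((Q.powersetCard k).filter fun T => (∏ q ∈ T, q).totient = m).card := by
    by_contra hcon
    push Not at hcon
    have h1 : ((Q.card.choose k : ℕ) : ℝ) < V.card * (X : ℝ) ^ (E / 8) := by
      rw [← card_powersetCard, card_eq_sum_card_fiberwise fun T hT => (hmaps T hT).1,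
        Nat.cast_sum, ← nsmul_eq_mul, ← sum_const]
      exact sum_lt_sum_of_nonempty hVne hcon
    have h2 := hchoose.trans_lt (h1.trans_le (mul_le_mul hVle hXγ (Real.rpow_nonneg
      (Nat.cast_nonneg X) _) (Real.exp_nonneg _)))
    rw [← Real.exp_add, Real.exp_lt_exp] at h2
    linarith
  refine ⟨m, ((Q.powersetCard k).filter fun T => (∏ q ∈ T, q).totient = m).image fun T =>
    ∏ q ∈ T, q, ?_, ?_, ?_, fun n hn => ?_⟩
  · rw [hV, smoothUpTo, mem_filter, mem_Icc] at hmV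
    exact hmV.1.1
  · rw [hV, smoothUpTo, mem_filter, mem_Icc] at hmV
    exact hmV.1.2
  · rw [card_image_of_injOn fun T hT T' hT' h => by
      rw [← (hmaps T (mem_filter.1 hT).1).2, ← (hmaps T' (mem_filter.1 hT').1).2]
      exact congrArg Nat.primeFactors h]
    exact hm
  · obtain ⟨T, hT, rfl⟩ := mem_image.1 hn
    exact (mem_filter.1 hT).2

/-- Consecutive bounds differ at most by squaring. -/
theorem eventually_productBound_succ_le {E : ℝ} (hE0 : 0 ≤ E) (hE : E ≤ 1 / 4) :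
    ∀ᶠ Z : ℕ in atTop, productBound E (Z + 1) ≤ productBound E Z ^ 2 := by
  have hN := tendsto_natCast_atTop_atTop (R := ℝ)
  filter_upwards [((tendsto_rpow_atTop (show 0 < 1 - E / 2 by linarith)).comp
    hN).eventually_ge_atTop 3, eventually_ge_atTop 2] with Z hpow hZ
  simp only [Function.comp_apply] at hpow
  obtain ⟨k, hk⟩ : ∃ k, k = partSize E Z := ⟨_, rfl⟩
  have hk3 : 3 ≤ k := by
    have : (3 : ℝ) ≤ k := hpow.trans (hk ▸ Nat.le_ceil _)
    exact_mod_cast this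
  have hsucc : partSize E (Z + 1) ≤ k + 1 := by
    rw [partSize, Nat.ceil_le, Nat.cast_add, Nat.cast_one, Nat.cast_add, Nat.cast_one]
    refine (Real.rpow_add_le_add_rpow (Nat.cast_nonneg Z) zero_le_one (by linarith)
      (by linarith)).trans ?_
    rw [Real.one_rpow]
    exact add_le_add (hk ▸ Nat.le_ceil _) le_rfl
  rw [productBound, productBound, ← hk]
  calc (2 * (Z + 1)) ^ partSize E (Z + 1) ≤ (2 * (Z + 1)) ^ (k + 1) :=
        Nat.pow_le_pow_right (by omega) hsucc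
    _ ≤ (4 * Z) ^ (k + 1) := Nat.pow_le_pow_left (by omega) _
    _ = 2 ^ (k + 1) * (2 * Z) ^ (k + 1) := by rw [← mul_pow, ← mul_assoc]; norm_num
    _ ≤ (2 * Z) ^ (k - 1) * (2 * Z) ^ (k + 1) := by
        refine Nat.mul_le_mul_right _ ?_
        refine le_trans ?_ (Nat.pow_le_pow_left (show 4 ≤ 2 * Z by omega) _)
        rw [show (4 : ℕ) = 2 ^ 2 by norm_num, ← pow_mul]
        exact Nat.pow_le_pow_right two_pos (by omega)
    _ = ((2 * Z) ^ k) ^ 2 := by rw [← pow_add, ← pow_mul]; congr 1; omega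

/-- **A popular value below every large `X`.** -/
theorem exists_popular_below : ∃ γ : ℝ, 0 < γ ∧ ∀ᶠ X : ℕ in atTop,
    ∃ (m : ℕ) (S : Finset ℕ), 1 ≤ m ∧ m ≤ X ∧ (X : ℝ) ^ γ ≤ S.card ∧
      ∀ n ∈ S, n.totient = m := by
  obtain ⟨E, γ, hE0, hE, hγ, h⟩ := exists_popular_value
  obtain ⟨Z₀, hZ₀⟩ := eventually_atTop.1
    (h.and ((eventually_productBound_succ_le hE0.le hE).and (eventually_ge_atTop 1)))
  refine ⟨γ / 2, half_pos hγ, ?_⟩
  filter_upwards [eventually_ge_atTop (productBound E Z₀)] with X hX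
  have hex : ∃ Z, Z₀ ≤ Z ∧ X < productBound E (Z + 1) := by
    refine ⟨max Z₀ X, le_max_left _ _, lt_of_lt_of_le
      (show X < 2 * (max Z₀ X + 1) by have := le_max_right Z₀ X; omega) ?_⟩
    refine Nat.le_self_pow (fun h0 => ?_) _
    rw [partSize, Nat.ceil_eq_zero] at h0
    exact absurd h0 (not_le.2 (Real.rpow_pos_of_pos (Nat.cast_pos.2 (Nat.succ_pos _)) _))
  obtain ⟨Z, hZ⟩ : ∃ Z, Z = Nat.find hex := ⟨_, rfl⟩
  obtain ⟨hZge, hZlt⟩ : Z₀ ≤ Z ∧ X < productBound E (Z + 1) := hZ ▸ Nat.find_spec hex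
  have hle : productBound E Z ≤ X := by
    rcases hZge.eq_or_lt with rfl | hlt
    · exact hX
    · have h1 := Nat.find_min hex (show Z - 1 < Nat.find hex by omega)
      rw [not_and, not_lt, Nat.sub_add_cancel (by omega)] at h1
      exact h1 (by omega)
  obtain ⟨⟨m, S, hm1, hmb, hS, hφ⟩, hsq, -⟩ := hZ₀ Z hZge
  refine ⟨m, S, hm1, hmb.trans hle, le_trans ?_ hS, hφ⟩
  refine (Real.rpow_le_rpow (Nat.cast_nonneg X)
    (show (X : ℝ) ≤ (productBound E Z : ℝ) ^ 2 by exact_mod_cast hZlt.le.trans hsq)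
    (by linarith)).trans (le_of_eq ?_)
  rw [← Real.rpow_natCast, ← Real.rpow_mul (Nat.cast_nonneg _)]
  push_cast
  ring_nf

/-- The preimages of `m ≥ 1` lie in `[0, m (m + 2)]`. -/
theorem fibre_subset {m : ℕ} (hm : 1 ≤ m) :
    {n : ℕ | n.totient = m} ⊆ ((Icc 0 (m * (m + 2)) : Finset ℕ) : Set ℕ) := fun n hn => by
  have hn' : n.totient = m := hn
  have hn0 : n ≠ 0 := fun h => by rw [h, Nat.totient_zero] at hn'; omega
  refine mem_coe.2 (mem_Icc.2 ⟨Nat.zero_le _, (FA.TotientValues.le_totient_mul hn0).trans ?_⟩)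
  rw [hn']
  refine Nat.mul_le_mul_left _ (Nat.add_le_add_right ?_ _)
  rw [ArithmeticFunction.cardFactors_apply]
  have h1 : 2 ^ m.primeFactorsList.length ≤ m.primeFactorsList.prod :=
    List.pow_card_le_prod _ _ fun p hp => (Nat.prime_of_mem_primeFactorsList hp).two_le
  rw [Nat.prod_primeFactorsList (by omega)] at h1
  exact (Nat.lt_two_pow_self).le.trans h1

theorem card_le_natCard_fibre {m : ℕ} (hm : 1 ≤ m) {S : Finset ℕ}
    (hS : ∀ n ∈ S, n.totient = m) : S.card ≤ Nat.card {n : ℕ // n.totient = m} := by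
  have hfin : {n : ℕ | n.totient = m}.Finite := (finite_toSet _).subset (fibre_subset hm)
  have hc : Nat.card {n : ℕ // n.totient = m} = hfin.toFinset.card :=
    Nat.card_eq_card_finite_toFinset hfin
  rw [hc]
  exact card_le_card fun n hn => hfin.mem_toFinset.2 (hS n hn)

theorem natCard_fibre_le {m : ℕ} (hm : 1 ≤ m) :
    Nat.card {n : ℕ // n.totient = m} ≤ m * (m + 2) + 1 := by
  have h : Nat.card {n : ℕ | n.totient = m} ≤
      Nat.card ((Icc 0 (m * (m + 2)) : Finset ℕ) : Set ℕ) :=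
    Nat.card_mono (finite_toSet _) (fibre_subset hm)
  rw [Nat.card_coe_set_eq ((Icc 0 (m * (m + 2)) : Finset ℕ) : Set ℕ), Set.ncard_coe_finset,
    Nat.card_Icc, Nat.sub_zero] at h
  exact h

/-- **Infinitely many popular values.** -/
theorem exists_infinite_popular : ∃ γ : ℝ, 0 < γ ∧
    {m : ℕ | 1 ≤ m ∧ (m : ℝ) ^ γ ≤ Nat.card {n : ℕ // n.totient = m}}.Infinite := by
  obtain ⟨γ, hγ, h⟩ := exists_popular_below
  refine ⟨γ, hγ, Set.infinite_of_forall_exists_gt fun B => ?_⟩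
  obtain ⟨X, ⟨m, S, hm1, hmX, hS, hφ⟩, hbig⟩ := (h.and (((tendsto_rpow_atTop hγ).comp
    tendsto_natCast_atTop_atTop).eventually_gt_atTop ((B : ℝ) * (B + 2) + 1))).exists
  simp only [Function.comp_apply] at hbig
  have hcard : (X : ℝ) ^ γ ≤ Nat.card {n : ℕ // n.totient = m} :=
    hS.trans (Nat.cast_le.2 (card_le_natCard_fibre hm1 hφ))
  refine ⟨m, ⟨hm1, le_trans (Real.rpow_le_rpow (Nat.cast_nonneg m) (Nat.cast_le.2 hmX) hγ.le)
    hcard⟩, lt_of_not_ge fun hmB => ?_⟩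
  have h1 : (Nat.card {n : ℕ // n.totient = m} : ℝ) ≤ ((m * (m + 2) + 1 : ℕ) : ℝ) :=
    Nat.cast_le.2 (natCard_fibre_le hm1)
  have h2 : ((m * (m + 2) + 1 : ℕ) : ℝ) ≤ ((B * (B + 2) + 1 : ℕ) : ℝ) :=
    Nat.cast_le.2 (Nat.add_le_add_right (Nat.mul_le_mul hmB (by omega)) _)
  push_cast at h1 h2
  linarith

end FA.PopularTotients

end
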